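/-
S48 (Deligne-Serre), piece (P6) = group lemma DS 7.2, file 1 (helper2): the arithmetic of the
class equation `1/t₁ + 1/t₂ + 1/t₃ = 1 + 2/n`.
-/
import Mathlib

set_option autoImplicit false

namespace Fermat.Agent.S48.P6

/-- Case `t₁ = 2`, `t₂ = 3`. -/
theorem arith_two_three {n a₁ a₂ a₃ t₃ : ℕ} (h1 : a₁ * 2 = n) (h2 : a₂ * 3 = n)
    (h3 : a₃ * t₃ = n) (ht3 : 2 ≤ t₃) (hsum : a₁ + a₂ + a₃ = n + 2) : n ≤ 60 := by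
  have h6 : 6 * a₃ = n + 12 := by omega
  have h7 : (n + 12) * t₃ = 6 * n := by rw [← h6, mul_assoc, h3]
  have h8 : t₃ < 6 := by
    by_contra hcon
    rw [not_lt] at hcon
    have : (n + 12) * 6 ≤ (n + 12) * t₃ := Nat.mul_le_mul_left _ hcon
    omega
  interval_cases t₃ <;> omega

/-- Case `t₁ = 2`, `t₂ ≤ 3`. -/
theorem arith_two_le_three {n a₁ a₂ a₃ t₂ t₃ : ℕ} (h1 : a₁ * 2 = n) (h2 : a₂ * t₂ = n)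
    (h3 : a₃ * t₃ = n) (ht2 : 2 ≤ t₂) (ht2' : t₂ ≤ 3) (ht3 : 2 ≤ t₃) (ha3 : 3 ≤ a₃)
    (hsum : a₁ + a₂ + a₃ = n + 2) : n ≤ 60 := by
  interval_cases t₂
  · omega
  · exact arith_two_three h1 h2 h3 ht3 hsum

/-- Case `t₁ = 2`. -/
theorem arith_two {n a₁ a₂ a₃ t₂ t₃ : ℕ} (h1 : a₁ * 2 = n) (h2 : a₂ * t₂ = n)
    (h3 : a₃ * t₃ = n) (ht2 : 2 ≤ t₂) (ht3 : 2 ≤ t₃) (ha2 : 3 ≤ a₂) (ha3 : 3 ≤ a₃)
    (hsum : a₁ + a₂ + a₃ = n + 2) : n ≤ 60 := by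
  by_cases c2 : t₂ ≤ 3
  · exact arith_two_le_three h1 h2 h3 ht2 c2 ht3 ha3 hsum
  by_cases c3 : t₃ ≤ 3
  · exact arith_two_le_three h1 h3 h2 ht3 c3 ht2 ha2 (by omega)
  exfalso
  rw [not_le] at c2 c3
  have e2 : a₂ * 4 ≤ a₂ * t₂ := Nat.mul_le_mul_left _ c2
  have e3 : a₃ * 4 ≤ a₃ * t₃ := Nat.mul_le_mul_left _ c3
  omega

/-- The arithmetic of three exceptional orbits: `n ≤ 60`. -/
theorem arith_three {n a₁ a₂ a₃ t₁ t₂ t₃ : ℕ} (h1 : a₁ * t₁ = n) (h2 : a₂ * t₂ = n)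
    (h3 : a₃ * t₃ = n) (ht1 : 2 ≤ t₁) (ht2 : 2 ≤ t₂) (ht3 : 2 ≤ t₃) (ha1 : 3 ≤ a₁)
    (ha2 : 3 ≤ a₂) (ha3 : 3 ≤ a₃) (hsum : a₁ + a₂ + a₃ = n + 2) : n ≤ 60 := by
  by_cases c1 : t₁ = 2
  · subst c1
    exact arith_two h1 h2 h3 ht2 ht3 ha2 ha3 hsum
  by_cases c2 : t₂ = 2
  · subst c2
    exact arith_two h2 h1 h3 ht1 ht3 ha1 ha3 (by omega)
  by_cases c3 : t₃ = 2
  · subst c3
    exact arith_two h3 h1 h2 ht1 ht2 ha1 ha2 (by omega)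
  exfalso
  have e1 : a₁ * 3 ≤ a₁ * t₁ := Nat.mul_le_mul_left _ (by omega)
  have e2 : a₂ * 3 ≤ a₂ * t₂ := Nat.mul_le_mul_left _ (by omega)
  have e3 : a₃ * 3 ≤ a₃ * t₃ := Nat.mul_le_mul_left _ (by omega)
  omega

end Fermat.Agent.S48.P6
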