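/-
S48 (Deligne-Serre), piece (P6) = group lemma DS 7.2, file 2 (helper2): the class equation.

A finite group `G` acts on a finite set `X`; `Z` is the kernel of the action; every `g ∉ Z` has
exactly two fixed points.  Then `[G : Z] ≤ 60` or some point has a stabiliser of index `≤ 2`.

Proof.  Burnside: `#Ω · #G = ∑_g #Fix g = #Z · #X + 2 (#G - #Z)` and `#X = ∑_ω #ω`, so with
`n = [G : Z]`:  `∑_ω (n - #ω) = 2 n - 2`.  For an orbit `ω` of `x`: `#ω · t = n`, `t = [G_x : Z]`.
The orbits with `#ω < n` have `2 #ω ≤ n`; their number `r` satisfies `r n ≤ 4 n - 4`, so `r ≤ 3`,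
and `r ≥ 2` if `n ≥ 2`.  `r = 2`: both orbits are points.  `r = 3`: `a₁ + a₂ + a₃ = n + 2`, and
`arith_three`.
-/
import Fermat.Agent.S48.P6.Arith

set_option autoImplicit false
set_option linter.unusedSectionVars false

namespace Fermat.Agent.S48.P6

open MulAction

section ClassEq

variable {G X : Type} [Group G] [Fintype G] [Fintype X] [DecidableEq X] [MulAction G X]

/-- The kernel of the action. -/
def actKer (G X : Type) [Group G] [MulAction G X] : Subgroup G := (MulAction.toPermHom G X).ker

theorem mem_actKer {g : G} : g ∈ actKer G X ↔ ∀ x : X, g • x = x := by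
  unfold actKer
  rw [MonoidHom.mem_ker]
  constructor
  · intro h x
    have := congrArg (fun σ : Equiv.Perm X => σ x) h
    simpa using this
  · intro h
    ext x
    simpa using h x

theorem actKer_le_stabilizer (x : X) : actKer G X ≤ stabilizer G x := fun _ hg =>
  mem_stabilizer_iff.mpr (mem_actKer.mp hg x)

open Classical in
/-- The size of an orbit, as a function on the set of orbits. -/
noncomputable def orbSize (ω : orbitRel.Quotient G X) : ℕ := Fintype.card ω.orbit

open Classical in
theorem sum_orbSize : ∑ ω : orbitRel.Quotient G X, orbSize ω = Fintype.card X := by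
  unfold orbSize
  rw [Fintype.card_congr (selfEquivSigmaOrbits' G X), Fintype.card_sigma]

open Classical in
theorem orbSize_spec (ω : orbitRel.Quotient G X) :
    ∃ x : X, orbSize ω = (stabilizer G x).index ∧
      orbSize ω * (actKer G X).relIndex (stabilizer G x) = (actKer G X).index := by
  induction ω using Quotient.inductionOn' with
  | h x =>
    have h1 : orbSize (Quotient.mk'' x : orbitRel.Quotient G X) = (stabilizer G x).index := by
      unfold orbSize
      rw [index_stabilizer, ← Nat.card_coe_set_eq, Nat.card_eq_fintype_card]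
      rfl
    refine ⟨x, h1, ?_⟩
    rw [h1, mul_comm]
    exact Subgroup.relIndex_mul_index (actKer_le_stabilizer x)

open Classical in
/-- **The class equation.** -/
theorem classEq_main (h2 : ∀ g : G, g ∉ actKer G X → Fintype.card (fixedBy X g) = 2) :
    (actKer G X).index ≤ 60 ∨ ∃ x : X, (stabilizer G x).index ≤ 2 := by
  obtain ⟨n, hn⟩ : ∃ n : ℕ, n = (actKer G X).index := ⟨_, rfl⟩
  obtain ⟨z, hz⟩ : ∃ z : ℕ, z = Fintype.card (actKer G X) := ⟨_, rfl⟩
  have hzpos : 0 < z := by rw [hz]; exact Fintype.card_pos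
  have hnpos : 0 < n := by
    rw [hn]
    exact Nat.pos_of_ne_zero (Subgroup.index_ne_zero_of_finite)
  have hN : Fintype.card G = z * n := by
    rw [hz, hn, ← Nat.card_eq_fintype_card, ← Nat.card_eq_fintype_card]
    exact (Subgroup.card_mul_index (actKer G X)).symm
  -- Burnside
  have hB := sum_card_fixedBy_eq_card_orbits_mul_card_group G X
  have hL : ∑ g : G, Fintype.card (fixedBy X g)
      = z * Fintype.card X + 2 * (Fintype.card G - z) := by
    rw [← Finset.sum_filter_add_sum_filter_not Finset.univ (fun g : G => g ∈ actKer G X)]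
    have e1 : ∀ g ∈ Finset.univ.filter (fun g : G => g ∈ actKer G X),
        Fintype.card (fixedBy X g) = Fintype.card X := by
      intro g hg
      rw [Finset.mem_filter] at hg
      apply Fintype.card_of_subtype Finset.univ
      intro x
      simp only [Finset.mem_univ, true_iff]
      exact mem_actKer.mp hg.2 x
    have e2 : ∀ g ∈ Finset.univ.filter (fun g : G => ¬ g ∈ actKer G X),
        Fintype.card (fixedBy X g) = 2 := by
      intro g hg
      rw [Finset.mem_filter] at hg
      exact h2 g hg.2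
    rw [Finset.sum_congr rfl e1, Finset.sum_congr rfl e2, Finset.sum_const, Finset.sum_const,
      smul_eq_mul, smul_eq_mul]
    have c1 : (Finset.univ.filter (fun g : G => g ∈ actKer G X)).card = z := by
      rw [hz, Fintype.card_subtype]
    have c2 : (Finset.univ.filter (fun g : G => ¬ g ∈ actKer G X)).card
        = Fintype.card G - z := by
      rw [← c1, ← Finset.card_univ, ← Finset.card_sdiff_of_subset (Finset.filter_subset _ _)]
      congr 1
      ext g
      simp
    rw [c1, c2, mul_comm 2]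
  rw [hL, ← sum_orbSize (G := G) (X := X), hN] at hB
  -- `hB : z * ∑ ω, a ω + 2 * (z * n - z) = #Ω * (z * n)`
  have hB' : ∑ ω : orbitRel.Quotient G X, orbSize ω + 2 * (n - 1)
      = Fintype.card (orbitRel.Quotient G X) * n := by
    apply Nat.eq_of_mul_eq_mul_left hzpos
    have e3 : z * n - z = z * (n - 1) := by rw [Nat.mul_sub, mul_one]
    rw [e3] at hB
    calc z * (∑ ω : orbitRel.Quotient G X, orbSize ω + 2 * (n - 1))
        = z * ∑ ω : orbitRel.Quotient G X, orbSize ω + 2 * (z * (n - 1)) := by ring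
      _ = Fintype.card (orbitRel.Quotient G X) * (z * n) := hB
      _ = z * (Fintype.card (orbitRel.Quotient G X) * n) := by ring
  -- the orbit sizes divide `n`
  have hdiv : ∀ ω : orbitRel.Quotient G X, ∃ t : ℕ, orbSize ω * t = n ∧
      ∃ x : X, orbSize ω = (stabilizer G x).index := by
    intro ω
    obtain ⟨x, hx1, hx2⟩ := orbSize_spec ω
    exact ⟨_, by rw [hn]; exact hx2, x, hx1⟩
  have hle : ∀ ω : orbitRel.Quotient G X, orbSize ω ≤ n ∧ 1 ≤ orbSize ω := by
    intro ω
    obtain ⟨t, ht, -⟩ := hdiv ω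
    have ht0 : t ≠ 0 := by
      rintro rfl
      rw [mul_zero] at ht
      omega
    have ha0 : orbSize ω ≠ 0 := by
      intro h0
      rw [h0, zero_mul] at ht
      omega
    refine ⟨?_, Nat.pos_of_ne_zero ha0⟩
    calc orbSize ω = orbSize ω * 1 := (mul_one _).symm
      _ ≤ orbSize ω * t := Nat.mul_le_mul_left _ (Nat.pos_of_ne_zero ht0)
      _ = n := ht
  have hhalf : ∀ ω : orbitRel.Quotient G X, orbSize ω < n → 2 * orbSize ω ≤ n := by
    intro ω hω
    obtain ⟨t, ht, -⟩ := hdiv ω
    have ht2 : 2 ≤ t := by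
      by_contra hcon
      have : t = 0 ∨ t = 1 := by omega
      rcases this with rfl | rfl
      · rw [mul_zero] at ht; omega
      · rw [mul_one] at ht; omega
    calc 2 * orbSize ω = orbSize ω * 2 := mul_comm _ _
      _ ≤ orbSize ω * t := Nat.mul_le_mul_left _ ht2
      _ = n := ht
  -- the exceptional orbits
  obtain ⟨E, hE⟩ : ∃ E : Finset (orbitRel.Quotient G X),
      E = Finset.univ.filter (fun ω : orbitRel.Quotient G X => orbSize ω < n) := ⟨_, rfl⟩
  have hsum : ∑ ω ∈ E, orbSize ω + 2 * (n - 1) = E.card * n := by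
    have e4 : ∑ ω : orbitRel.Quotient G X, orbSize ω
        = ∑ ω ∈ E, orbSize ω
          + ∑ ω ∈ Finset.univ.filter (fun ω : orbitRel.Quotient G X => ¬ orbSize ω < n), n := by
      rw [hE, ← Finset.sum_filter_add_sum_filter_not Finset.univ
        (fun ω : orbitRel.Quotient G X => orbSize ω < n)]
      congr 1
      refine Finset.sum_congr rfl fun ω hω => ?_
      rw [Finset.mem_filter] at hω
      have := (hle ω).1
      omega
    have e5 : Fintype.card (orbitRel.Quotient G X)
        = E.card + (Finset.univ.filter (fun ω : orbitRel.Quotient G X => ¬ orbSize ω < n)).card := by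
      rw [hE, ← Finset.card_univ]
      exact (Finset.card_filter_add_card_filter_not (s := Finset.univ)
        (fun ω : orbitRel.Quotient G X => orbSize ω < n)).symm
    rw [e4, e5, Finset.sum_const, smul_eq_mul, add_mul] at hB'
    omega
  have hS1 : E.card ≤ ∑ ω ∈ E, orbSize ω := by
    calc E.card = ∑ ω ∈ E, 1 := by simp
      _ ≤ ∑ ω ∈ E, orbSize ω := Finset.sum_le_sum fun ω _ => (hle ω).2
  have hS2 : 2 * ∑ ω ∈ E, orbSize ω ≤ E.card * n := by
    rw [Finset.mul_sum]
    calc ∑ ω ∈ E, 2 * orbSize ω ≤ ∑ ω ∈ E, n := Finset.sum_le_sum fun ω hω => by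
          rw [hE, Finset.mem_filter] at hω
          exact hhalf ω hω.2
      _ = E.card * n := by rw [Finset.sum_const, smul_eq_mul]
  have hdivE : ∀ ω ∈ E, ∃ t : ℕ, 2 ≤ t ∧ orbSize ω * t = n ∧
      ∃ x : X, orbSize ω = (stabilizer G x).index := by
    intro ω hω
    rw [hE, Finset.mem_filter] at hω
    obtain ⟨t, ht, hx⟩ := hdiv ω
    refine ⟨t, ?_, ht, hx⟩
    by_contra hcon
    have : t = 0 ∨ t = 1 := by omega
    rcases this with rfl | rfl
    · rw [mul_zero] at ht; omega
    · rw [mul_one] at ht; omega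
  obtain ⟨r, hr⟩ : ∃ r, r = E.card := ⟨_, rfl⟩
  obtain ⟨S, hS⟩ : ∃ S, S = ∑ ω ∈ E, orbSize ω := ⟨_, rfl⟩
  rw [← hr, ← hS] at hsum hS2
  rw [← hr, ← hS] at hS1
  by_cases hn1 : n ≤ 1
  · left
    rw [← hn]
    omega
  rw [not_le] at hn1
  have hr4 : r < 4 := by
    by_contra hcon
    rw [not_lt] at hcon
    have : 4 * n ≤ r * n := Nat.mul_le_mul_right _ hcon
    omega
  have hr2 : 2 ≤ r := by
    by_contra hcon
    have : r = 0 ∨ r = 1 := by omega
    rcases this with h | h <;> rw [h] at hsum hS1 <;> omega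
  have hr23 : r = 2 ∨ r = 3 := by omega
  rcases hr23 with h | h
  · -- two exceptional orbits: both are points
    right
    rw [h] at hsum
    rw [hr] at h
    obtain ⟨ω1, ω2, hne, hE2⟩ := Finset.card_eq_two.mp h
    rw [hS, hE2, Finset.sum_pair hne] at hsum
    have := (hle ω1).2
    have := (hle ω2).2
    have h1 : orbSize ω1 = 1 := by omega
    obtain ⟨t, -, x, hx⟩ := hdiv ω1
    exact ⟨x, by rw [← hx, h1]; norm_num⟩
  · -- three exceptional orbits
    rw [h] at hsum
    rw [hr] at h
    obtain ⟨ω1, ω2, ω3, h12, h13, h23, hE3⟩ := Finset.card_eq_three.mp h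
    have hm1 : ω1 ∈ E := by rw [hE3]; simp
    have hm2 : ω2 ∈ E := by rw [hE3]; simp
    have hm3 : ω3 ∈ E := by rw [hE3]; simp
    have hS3 : S = orbSize ω1 + orbSize ω2 + orbSize ω3 := by
      rw [hS, hE3, Finset.sum_insert (by simp [h12, h13]), Finset.sum_pair h23, add_assoc]
    obtain ⟨t1, ht1, e1, x1, hx1⟩ := hdivE ω1 hm1
    obtain ⟨t2, ht2, e2, x2, hx2⟩ := hdivE ω2 hm2
    obtain ⟨t3, ht3, e3, x3, hx3⟩ := hdivE ω3 hm3
    by_cases c1 : orbSize ω1 ≤ 2
    · exact Or.inr ⟨x1, by rw [← hx1]; exact c1⟩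
    by_cases c2 : orbSize ω2 ≤ 2
    · exact Or.inr ⟨x2, by rw [← hx2]; exact c2⟩
    by_cases c3 : orbSize ω3 ≤ 2
    · exact Or.inr ⟨x3, by rw [← hx3]; exact c3⟩
    left
    rw [← hn]
    exact arith_three e1 e2 e3 ht1 ht2 ht3 (by omega) (by omega) (by omega) (by omega)

end ClassEq

end Fermat.Agent.S48.P6
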